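/-
Project MW (S17), leaf [HG] (helper17), part 1: THE ABSOLUTE HEIGHT `mw_ht` — basic calculus,
transferred from Mathlib's `Height.logHeight` through `[ABS]` (`mw_ah_seamABS`).

* `mw_hg_ht_eq`        : `mw_ht v = logHeight_{K'} v / [K' : ℚ]` for any number field `K' ∋ v i`;
* `mw_hg_ht_smul`      : projective invariance;
* `mw_hg_ht_comp_le`   : a sub-tuple has smaller height;
* `mw_hg_ht_linear_le` : `h(A v) ≤ h(v) + log #ι + h(A)`;
* `mw_hg_ht_tensor`    : `h(v^{⊗ m}) = m · h(v)`.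
Prefix `mw_hg_`.
-/
import Fermat.Agent.MW.AbsHeight

set_option autoImplicit false
set_option linter.style.haveILetI false

noncomputable section

namespace Fermat.Agent.MW

open Height

/-- a number field inside `Q̄` containing a given finite set -/
theorem mw_hg_exists_nf (S : Set mw_K) (hS : S.Finite) :
    ∃ K' : IntermediateField ℚ mw_K, FiniteDimensional ℚ ↥K' ∧ S ⊆ (K' : Set mw_K) := by
  haveI : Finite S := hS
  exact ⟨IntermediateField.adjoin ℚ S,
    IntermediateField.finiteDimensional_adjoin (S := S)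
      (fun x _ => ((AlgebraicClosure.isAlgebraic ℚ).isAlgebraic x).isIntegral),
    IntermediateField.subset_adjoin ℚ S⟩

theorem mw_hg_numberField (K' : IntermediateField ℚ mw_K) (h : FiniteDimensional ℚ ↥K') :
    NumberField ↥K' := { to_finiteDimensional := h }

/-- `[ABS]`, in the form used below -/
theorem mw_hg_ht_eq (K' : IntermediateField ℚ mw_K) [NumberField ↥K'] {ι : Type} [Finite ι]
    (v : ι → mw_K) (hv : ∀ i, v i ∈ K') :
    mw_ht v = logHeight (fun i => (⟨v i, hv i⟩ : ↥K')) / (Module.finrank ℚ ↥K' : ℝ) :=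
  (mw_ah_seamABS K' (fun i => (⟨v i, hv i⟩ : ↥K'))).symm

theorem mw_hg_finrank_pos (K' : IntermediateField ℚ mw_K) [NumberField ↥K'] :
    (0 : ℝ) < (Module.finrank ℚ ↥K' : ℝ) := by
  have : 0 < Module.finrank ℚ ↥K' := Module.finrank_pos
  exact_mod_cast this

theorem mw_hg_ht_nonneg {ι : Type} [Finite ι] (v : ι → mw_K) : 0 ≤ mw_ht v := by
  obtain ⟨K', hfd, hS⟩ := mw_hg_exists_nf (Set.range v) (Set.finite_range v)
  haveI := mw_hg_numberField K' hfd
  have hvK : ∀ i, v i ∈ K' := fun i => hS ⟨i, rfl⟩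
  rw [mw_hg_ht_eq K' _ hvK]
  exact div_nonneg (logHeight_nonneg _) (mw_hg_finrank_pos K').le

/-- projective invariance of the absolute height -/
theorem mw_hg_ht_smul {ι : Type} [Finite ι] (v : ι → mw_K) {c : mw_K} (hc : c ≠ 0) :
    mw_ht (c • v) = mw_ht v := by
  obtain ⟨K', hfd, hS⟩ := mw_hg_exists_nf (insert c (Set.range v))
    ((Set.finite_range v).insert c)
  haveI := mw_hg_numberField K' hfd
  have hcK : c ∈ K' := hS (Set.mem_insert _ _)
  have hvK : ∀ i, v i ∈ K' := fun i => hS (Set.mem_insert_of_mem _ ⟨i, rfl⟩)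
  have hcv : ∀ i, (c • v) i ∈ K' := fun i => K'.mul_mem hcK (hvK i)
  rw [mw_hg_ht_eq K' _ hcv, mw_hg_ht_eq K' _ hvK]
  congr 1
  have e : (fun i => (⟨(c • v) i, hcv i⟩ : ↥K')) =
      (⟨c, hcK⟩ : ↥K') • fun i => (⟨v i, hvK i⟩ : ↥K') := by
    funext i
    apply Subtype.ext
    simp
  rw [e, logHeight_smul_eq_logHeight]
  intro h
  exact hc (congrArg Subtype.val h)

/-- a sub-tuple has smaller height -/
theorem mw_hg_ht_comp_le {ι ι' : Type} [Finite ι] [Finite ι'] (f : ι → ι') (v : ι' → mw_K) :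
    mw_ht (v ∘ f) ≤ mw_ht v := by
  obtain ⟨K', hfd, hS⟩ := mw_hg_exists_nf (Set.range v) (Set.finite_range v)
  haveI := mw_hg_numberField K' hfd
  have hvK : ∀ i, v i ∈ K' := fun i => hS ⟨i, rfl⟩
  have hvf : ∀ i, (v ∘ f) i ∈ K' := fun i => hvK (f i)
  rw [mw_hg_ht_eq K' _ hvf, mw_hg_ht_eq K' _ hvK]
  refine div_le_div_of_nonneg_right ?_ (mw_hg_finrank_pos K').le
  exact logHeight_comp_le f (fun i => (⟨v i, hvK i⟩ : ↥K'))

/-- linear maps increase the height by at most a constant -/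
theorem mw_hg_ht_linear_le {ι ι' : Type} [Fintype ι] [Finite ι'] (A : ι' × ι → mw_K)
    (v : ι → mw_K) :
    mw_ht (fun j => ∑ i, A (j, i) * v i) ≤ mw_ht v + (Real.log (Nat.card ι) + mw_ht A) := by
  obtain ⟨K', hfd, hS⟩ := mw_hg_exists_nf (Set.range A ∪ Set.range v)
    ((Set.finite_range A).union (Set.finite_range v))
  haveI := mw_hg_numberField K' hfd
  have hAK : ∀ p, A p ∈ K' := fun p => hS (Or.inl ⟨p, rfl⟩)
  have hvK : ∀ i, v i ∈ K' := fun i => hS (Or.inr ⟨i, rfl⟩)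
  have hwK : ∀ j, (∑ i, A (j, i) * v i) ∈ K' := fun j =>
    K'.sum_mem fun i _ => K'.mul_mem (hAK (j, i)) (hvK i)
  rw [mw_hg_ht_eq K' _ hwK, mw_hg_ht_eq K' _ hvK, mw_hg_ht_eq K' _ hAK]
  have hd := mw_hg_finrank_pos K'
  have e : (fun j => (⟨∑ i, A (j, i) * v i, hwK j⟩ : ↥K')) =
      fun j => ∑ i, (⟨A (j, i), hAK (j, i)⟩ : ↥K') * (⟨v i, hvK i⟩ : ↥K') := by
    funext j
    apply Subtype.ext
    simp
  rw [e]
  have h := logHeight_linearMap_apply_le (fun p => (⟨A p, hAK p⟩ : ↥K'))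
    (fun i => (⟨v i, hvK i⟩ : ↥K'))
  rw [NumberField.totalWeight_eq_finrank] at h
  rw [div_le_iff₀ hd]
  calc _ ≤ _ := h
    _ = _ := by field_simp; ring

/-- the height of the `m`-th tensor power -/
theorem mw_hg_ht_tensor {ι : Type} [Finite ι] (m : ℕ) (v : ι → mw_K) (hv : v ≠ 0) :
    mw_ht (fun I : Fin m → ι => ∏ j, v (I j)) = m * mw_ht v := by
  obtain ⟨K', hfd, hS⟩ := mw_hg_exists_nf (Set.range v) (Set.finite_range v)
  haveI := mw_hg_numberField K' hfd
  have hvK : ∀ i, v i ∈ K' := fun i => hS ⟨i, rfl⟩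
  have hwK : ∀ I : Fin m → ι, (∏ j, v (I j)) ∈ K' := fun I =>
    K'.prod_mem fun j _ => hvK (I j)
  rw [mw_hg_ht_eq K' _ hwK, mw_hg_ht_eq K' _ hvK]
  have e : (fun I : Fin m → ι => (⟨∏ j, v (I j), hwK I⟩ : ↥K')) =
      fun I : Fin m → ι => ∏ j, (fun _ : Fin m => fun i => (⟨v i, hvK i⟩ : ↥K')) j (I j) := by
    funext I
    apply Subtype.ext
    simp
  have hv' : (fun i => (⟨v i, hvK i⟩ : ↥K')) ≠ 0 := by
    intro h
    apply hv
    funext i
    exact congrArg Subtype.val (congrFun h i)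
  rw [e, logHeight_fun_prod_eq (fun _ => hv')]
  simp only [Finset.sum_const, Finset.card_univ, Fintype.card_fin, nsmul_eq_mul]
  ring

/-- the height of the coordinatewise `m`-th power -/
theorem mw_hg_ht_pow {ι : Type} [Finite ι] (m : ℕ) (v : ι → mw_K) :
    mw_ht (fun i => v i ^ m) = m * mw_ht v := by
  obtain ⟨K', hfd, hS⟩ := mw_hg_exists_nf (Set.range v) (Set.finite_range v)
  haveI := mw_hg_numberField K' hfd
  have hvK : ∀ i, v i ∈ K' := fun i => hS ⟨i, rfl⟩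
  have hwK : ∀ i, v i ^ m ∈ K' := fun i => pow_mem (hvK i) m
  rw [mw_hg_ht_eq K' _ hwK, mw_hg_ht_eq K' _ hvK]
  have e : (fun i => (⟨v i ^ m, hwK i⟩ : ↥K')) = (fun i => (⟨v i, hvK i⟩ : ↥K')) ^ m := by
    funext i
    apply Subtype.ext
    simp
  rw [e, logHeight_pow]
  ring

end Fermat.Agent.MW

end
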