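/-
Project MW (S17), leaf [HG] (helper17), part 2: LOCAL ANALYSIS OF THE DERIVATION `d/dt` AT A PLACE
(generic: `K` algebraically closed of characteristic zero, `F/K` a function field of one variable).
Built on the S24 Hurwitz library (`hw_deriv`, `hw_exists_D_eq_smul`, `hw_exists_D_eq_smul_ord`).

* `mw_hg_irreducible_of_ord` : `ord_v π = 1 ⟹ π` is irreducible in `O_v`;
* `mw_hg_deriv_mem`    : for `u = c + π u'` in `O_v`: `D u = (u' + π g') · D π` with `g' ∈ O_v`;
* `mw_hg_ord_deriv_unif` : `ord_v (D π) = -(ord_v (t - c) - 1)` resp. `-(ord_v t - 1)`.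
Prefix `mw_hg_`.
-/
import Fermat.Agent.S24.Hurwitz.Differentials

set_option autoImplicit false
set_option linter.style.haveILetI false

noncomputable section

namespace Fermat.Agent.MW

open AlgebraicCurve IntermediateField KaehlerDifferential Fermat.Agent.S24

universe u v
variable {K : Type u} {F : Type v} [Field K] [Field F] [Algebra K F]

/-- an element of order `1` is a uniformiser -/
theorem mw_hg_irreducible_of_ord (v : Place K F) {π : v.toValuationSubring}
    (h : v.ord (π : F) = 1) : Irreducible π := by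
  obtain ⟨ϖ, hϖ⟩ := IsDiscreteValuationRing.exists_irreducible v.toValuationSubring
  have hπ0 : (π : F) ≠ 0 := by
    intro h0
    rw [h0, Place.ord_zero] at h
    exact zero_ne_one h
  obtain ⟨w, hw⟩ := v.exists_unit_mul_zpow hπ0 hϖ
  rw [h, zpow_one] at hw
  have e : π = (w : v.toValuationSubring) * ϖ := Subtype.ext hw
  rw [e]
  exact (irreducible_units_mul w).mpr hϖ

variable [IsAlgClosed K] [CharZero K]

/-- **the derivative of a regular function at a place**: if `u = c + π u'` with `u' ∈ O_v`, then
`D u = (u' + π g') D π` with `g' ∈ O_v` (`D = d/dt`). -/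
theorem mw_hg_deriv_mem {t : F} (ht : Transcendental K t) [FiniteDimensional K⟮t⟯ F]
    (v : Place K F) {π : v.toValuationSubring} (hπ : Irreducible π) (c : K)
    (u' : v.toValuationSubring) :
    ∃ g' : v.toValuationSubring,
      hw_deriv ht (algebraMap K F c + (π : F) * (u' : F)) =
        ((u' : F) + (π : F) * (g' : F)) * hw_deriv ht (π : F) := by
  obtain ⟨g', hg'⟩ := hw_exists_D_eq_smul ht v hπ u'
  refine ⟨g', ?_⟩
  have h1 : hw_deriv ht (u' : F) = (g' : F) * hw_deriv ht (π : F) := by
    rw [hw_deriv_apply, hg', map_smul, smul_eq_mul, ← hw_deriv_apply]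
  rw [map_add, Derivation.map_algebraMap, zero_add, Derivation.leibniz, h1]
  simp only [smul_eq_mul]
  ring

/-- the order of `D π` at `v`, `π` a uniformiser, when `t` is regular at `v` with value `c` -/
theorem mw_hg_ord_deriv_unif_of_mem {t : F} (ht : Transcendental K t) [FiniteDimensional K⟮t⟯ F]
    (v : Place K F) {π : v.toValuationSubring} (hπ : Irreducible π) (c : K)
    (hc : 0 < v.ord (t - algebraMap K F c)) :
    hw_deriv ht (π : F) ≠ 0 ∧
      v.ord (hw_deriv ht (π : F)) = -(v.ord (t - algebraMap K F c) - 1) := by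
  obtain ⟨g, hg, hord⟩ := hw_exists_D_eq_smul_ord ht v hπ (y := t - algebraMap K F c) hc.ne'
  have h1 : (1 : F) = g * hw_deriv ht (π : F) := by
    have := congrArg (hw_kaehlerEquiv ht) hg
    rw [map_smul, smul_eq_mul, ← hw_deriv_apply, ← hw_deriv_apply, map_sub,
      Derivation.map_algebraMap, sub_zero, hw_deriv_self] at this
    exact this
  have hne : hw_deriv ht (π : F) ≠ 0 := by
    intro h0
    rw [h0, mul_zero] at h1
    exact one_ne_zero h1
  have hg0 : g ≠ 0 := by
    intro h0
    rw [h0, zero_mul] at h1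
    exact one_ne_zero h1
  refine ⟨hne, ?_⟩
  have h2 := congrArg v.ord h1
  rw [Place.ord_one, v.ord_mul hg0 hne, hord] at h2
  omega

/-- the order of `D π` at `v`, `π` a uniformiser, when `t` has a pole at `v` -/
theorem mw_hg_ord_deriv_unif_of_pole {t : F} (ht : Transcendental K t) [FiniteDimensional K⟮t⟯ F]
    (v : Place K F) {π : v.toValuationSubring} (hπ : Irreducible π)
    (hc : v.ord t < 0) :
    hw_deriv ht (π : F) ≠ 0 ∧ v.ord (hw_deriv ht (π : F)) = -(v.ord t - 1) := by
  obtain ⟨g, hg, hord⟩ := hw_exists_D_eq_smul_ord ht v hπ (y := t) hc.ne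
  have h1 : (1 : F) = g * hw_deriv ht (π : F) := by
    have := congrArg (hw_kaehlerEquiv ht) hg
    rw [map_smul, smul_eq_mul, ← hw_deriv_apply, ← hw_deriv_apply, hw_deriv_self] at this
    exact this
  have hne : hw_deriv ht (π : F) ≠ 0 := by
    intro h0
    rw [h0, mul_zero] at h1
    exact one_ne_zero h1
  have hg0 : g ≠ 0 := by
    intro h0
    rw [h0, zero_mul] at h1
    exact one_ne_zero h1
  refine ⟨hne, ?_⟩
  have h2 := congrArg v.ord h1
  rw [Place.ord_one, v.ord_mul hg0 hne, hord] at h2
  omega

end Fermat.Agent.MW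

end
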