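/-
Project MW (S17), leaf [HG] (helper17), part 3: THE REFERENCE EMBEDDING IS BASE-POINT FREE AND AN
IMMERSION (from Riemann–Roch in the range `deg ≥ k - 2`).

* `mw_hg_ord_sum_ge`  : `ord_z (∑ f_i) ≥ m` if all `ord_z f_i ≥ m`;
* `mw_hg_bpf`         : `ord_z x_{piv} = -(k·∞)(z)`;
* `mw_hg_imm`         : some coordinate of the tangent vector `τ(z)` is nonzero;
* `mw_hg_wedge_ne`    : `τ(z) ∧ x(z) ≠ 0`.
Prefix `mw_hg_`.
-/
import Fermat.Agent.MW.Core.Seams
import Fermat.Agent.MW.Core.Val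
import Fermat.Agent.MW.Inf
import Fermat.Agent.FF.Generic
import Fermat.Agent.JT3.Riemann.FBar

set_option autoImplicit false
set_option linter.style.haveILetI false
set_option linter.unusedSectionVars false

noncomputable section

namespace Fermat.Agent.MW

open AlgebraicCurve ModularCurve Fermat.Agent.S24 Fermat.Agent.JT3 Fermat.Agent.FF
open scoped Classical IntermediateField

variable {N : ℕ} [NeZero N]

/-- there is a uniformiser at every place -/
theorem mw_hg_exists_unif (z : mw_X N) : ∃ ϖ : mw_F N, z.ord ϖ = 1 := by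
  obtain ⟨ϖ, hϖ⟩ := IsDiscreteValuationRing.exists_irreducible z.toValuationSubring
  exact ⟨(ϖ : mw_F N), z.ord_coe_irreducible hϖ⟩

theorem mw_hg_ne_zero_of_ord {z : mw_X N} {f : mw_F N} {n : ℤ} (h : z.ord f = n) (hn : n ≠ 0) :
    f ≠ 0 := by
  intro h0
  rw [h0, Place.ord_zero] at h
  exact hn h.symm

/-- `f / ϖ^m ∈ O_z` iff `f = 0` or `ord_z f ≥ m` -/
theorem mw_hg_div_zpow_mem (z : mw_X N) {ϖ : mw_F N} (hϖ : z.ord ϖ = 1) (f : mw_F N) (m : ℤ) :
    f / ϖ ^ m ∈ z.toValuationSubring ↔ f = 0 ∨ m ≤ z.ord f := by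
  have hϖ0 : ϖ ≠ 0 := mw_hg_ne_zero_of_ord hϖ one_ne_zero
  by_cases hf : f = 0
  · simp [hf, z.toValuationSubring.zero_mem]
  · have hne : f / ϖ ^ m ≠ 0 := div_ne_zero hf (zpow_ne_zero _ hϖ0)
    rw [mw_v_mem_iff z hne, div_eq_mul_inv, z.ord_mul hf (inv_ne_zero (zpow_ne_zero _ hϖ0)),
      z.ord_inv, z.ord_zpow, hϖ]
    constructor
    · intro h; right; omega
    · rintro (h | h)
      · exact absurd h hf
      · omega

/-- the order of a sum is at least the minimum of the orders -/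
theorem mw_hg_ord_sum_ge (z : mw_X N) {ι : Type} (s : Finset ι) (f : ι → mw_F N) (m : ℤ)
    (h : ∀ i ∈ s, f i = 0 ∨ m ≤ z.ord (f i)) (hne : ∑ i ∈ s, f i ≠ 0) :
    m ≤ z.ord (∑ i ∈ s, f i) := by
  obtain ⟨ϖ, hϖ⟩ := mw_hg_exists_unif z
  have h1 : (∑ i ∈ s, f i) / ϖ ^ m ∈ z.toValuationSubring := by
    rw [Finset.sum_div]
    exact z.toValuationSubring.sum_mem fun i hi => (mw_hg_div_zpow_mem z hϖ _ m).mpr (h i hi)
  rcases (mw_hg_div_zpow_mem z hϖ _ m).mp h1 with h2 | h2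
  · exact absurd h2 hne
  · exact h2

theorem mw_hg_sec_eq_sum {s : ℕ} (ψ : Fin (s + 1) → mw_F N) (cc : Fin (s + 1) → mw_K) :
    mw_sec ψ cc = ∑ b, cc b • ψ b := by
  rw [mw_sec]
  exact Finset.sum_congr rfl fun b _ => (Algebra.smul_def _ _).symm

/-- elements of the span are sections -/
theorem mw_hg_mem_span_iff {s : ℕ} (ψ : Fin (s + 1) → mw_F N) (f : mw_F N) :
    f ∈ Submodule.span mw_K (Set.range ψ) ↔ ∃ cc : Fin (s + 1) → mw_K, mw_sec ψ cc = f := by
  rw [Submodule.mem_span_range_iff_exists_fun]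
  constructor
  · rintro ⟨c, hc⟩; exact ⟨c, by rw [mw_hg_sec_eq_sum, hc]⟩
  · rintro ⟨c, hc⟩; exact ⟨c, by rw [← mw_hg_sec_eq_sum, hc]⟩

/-- the data of a reference embedding, with the cusp normalised -/
structure mw_hg_Ref {r : ℕ} (x : Fin (r + 1) → mw_F N) (Pinf : mw_X N) (k g : ℕ) : Prop where
  li : LinearIndependent mw_K x
  hk : 2 * g + 1 ≤ k
  rr : ∀ D : mw_Div N, (k : ℤ) - 2 ≤ Divisor.degree D →
    (Module.finrank mw_K ↥(riemannRochSpace D) : ℤ) = Divisor.degree D + 1 - g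
  span : Submodule.span mw_K (Set.range x) = riemannRochSpace (Finsupp.single Pinf (k : ℤ))

theorem mw_hg_ref_of_isRef {r : ℕ} {x : Fin (r + 1) → mw_F N} (hx : mw_IsRef N x)
    {Pinf : mw_X N} (hPinf : mw_IsInf N Pinf) : ∃ k g : ℕ, mw_hg_Ref x Pinf k g := by
  obtain ⟨_, hli, P', k, g, hP', hk, hrr, hspan⟩ := hx
  have e : P' = Pinf := by rw [mw_inf_unique N P' hP', mw_inf_unique N Pinf hPinf]
  subst e
  exact ⟨k, g, hli, hk, hrr, hspan⟩

section ref

variable {r : ℕ} {x : Fin (r + 1) → mw_F N} {Pinf : mw_X N} {k g : ℕ}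

theorem mw_hg_Ref.exists_ne (h : mw_hg_Ref x Pinf k g) : ∃ b, x b ≠ 0 :=
  mw_v_exists_ne_zero h.li

theorem mw_hg_Ref.mem_L (h : mw_hg_Ref x Pinf k g) (a : Fin (r + 1)) :
    x a ∈ riemannRochSpace (Finsupp.single Pinf (k : ℤ)) := by
  rw [← h.span]
  exact Submodule.subset_span ⟨a, rfl⟩

theorem mw_hg_degree_single (z : mw_X N) (n : ℤ) :
    Divisor.degree (Finsupp.single z n : mw_Div N) = n :=
  rt_degree_single (rt_isSepGen_jBar N) z n

/-- **the reference embedding is base-point free** -/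
theorem mw_hg_bpf (h : mw_hg_Ref x Pinf k g) (z : mw_X N) :
    z.ord (x (mw_piv x z)) = -(Finsupp.single Pinf (k : ℤ) : mw_Div N) z := by
  obtain ⟨D, hD⟩ : ∃ D : mw_Div N, D = Finsupp.single Pinf (k : ℤ) := ⟨_, rfl⟩
  obtain ⟨C, hC⟩ : ∃ C : mw_Div N, C = D - Finsupp.single z 1 := ⟨_, rfl⟩
  rw [← hD]
  have hspan := h.span
  have hmemL := h.mem_L (mw_piv x z)
  rw [← hD] at hspan hmemL
  have hCD : C + Finsupp.single z 1 = D := by rw [hC]; abel
  have hdegD : Divisor.degree D = k := by rw [hD]; exact mw_hg_degree_single Pinf k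
  have hdegC : Divisor.degree C = k - 1 := by
    rw [hC, map_sub, hdegD, mw_hg_degree_single]
  have hjump : Module.finrank mw_K ↥(riemannRochSpace (C + Finsupp.single z 1)) ≠
      Module.finrank mw_K ↥(riemannRochSpace C) := by
    intro heq
    have h1 := h.rr (C + Finsupp.single z 1) (by rw [hCD, hdegD]; omega)
    have h2 := h.rr C (by rw [hdegC]; omega)
    rw [heq, h2, hCD, hdegD, hdegC] at h1
    omega
  obtain ⟨f, hf0, hfL, hford⟩ := ffg_exists_of_jump (rt_isSepGen_jBar N) C z hjump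
  rw [hCD] at hfL
  have hford' : z.ord f = -D z := by
    rw [hford, hC, Finsupp.sub_apply, Finsupp.single_eq_same]; ring
  rw [← hspan, mw_hg_mem_span_iff] at hfL
  obtain ⟨cc, rfl⟩ := hfL
  obtain ⟨hq0, _⟩ := mw_v_piv_spec x h.exists_ne z
  have h1 := (mw_v_mem_iff z (div_ne_zero hf0 hq0)).mp (mw_v_sec_div_mem x h.exists_ne z cc)
  rw [div_eq_mul_inv, z.ord_mul hf0 (inv_ne_zero hq0), z.ord_inv] at h1
  have h2 := (rt_mem_L_iff hq0).mp hmemL z
  omega

/-- the coordinates `ξ_a = x_a / x_piv` are regular at `z`, and `(ξ_a - ξ_a(z)) / π` too -/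
theorem mw_hg_eta_mem (h : mw_hg_Ref x Pinf k g) (z : mw_X N) {π : mw_F N} (hπ : z.ord π = 1)
    (a : Fin (r + 1)) :
    (x a / x (mw_piv x z) - algebraMap mw_K (mw_F N) (mw_vec x z a)) / π ∈
      z.toValuationSubring := by
  have hmem := (mw_v_piv_spec x h.exists_ne z).2 a
  have hnu := mw_v_spec z hmem
  have hπ0 : π ≠ 0 := mw_hg_ne_zero_of_ord hπ one_ne_zero
  by_cases h0 : x a / x (mw_piv x z) - algebraMap mw_K (mw_F N) (mw_vec x z a) = 0
  · rw [mw_vec] at h0
    rw [mw_vec, h0, zero_div]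
    exact z.toValuationSubring.zero_mem
  · rw [mw_vec] at h0 ⊢
    have h1 := (mw_v_mem_nonunits_iff z h0).mp hnu
    rw [mw_v_mem_iff z (div_ne_zero h0 hπ0), div_eq_mul_inv, z.ord_mul h0 (inv_ne_zero hπ0),
      z.ord_inv, hπ]
    omega

/-- **the reference embedding is an immersion**: some coordinate of the tangent vector at `z` is
nonzero -/
theorem mw_hg_imm (h : mw_hg_Ref x Pinf k g) (z : mw_X N) {π : mw_F N} (hπ : z.ord π = 1) :
    ∃ b, mw_tanAt N x z π b ≠ 0 := by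
  by_contra hcon
  push Not at hcon
  obtain ⟨D, hD⟩ : ∃ D : mw_Div N, D = Finsupp.single Pinf (k : ℤ) := ⟨_, rfl⟩
  obtain ⟨C, hC⟩ : ∃ C : mw_Div N, C = D - Finsupp.single z 2 := ⟨_, rfl⟩
  have hspan := h.span
  have hbpf := mw_hg_bpf h z
  rw [← hD] at hspan hbpf
  have hCD : C + Finsupp.single z 1 = D - Finsupp.single z 1 := by
    rw [hC]
    have : (Finsupp.single z 2 : mw_Div N) = Finsupp.single z 1 + Finsupp.single z 1 := by
      rw [← Finsupp.single_add]; norm_num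
    rw [this]; abel
  have hdegD : Divisor.degree D = k := by rw [hD]; exact mw_hg_degree_single Pinf k
  have hdegC : Divisor.degree C = k - 2 := by
    rw [hC, map_sub, hdegD, mw_hg_degree_single]
  have hdegC1 : Divisor.degree (C + Finsupp.single z 1) = k - 1 := by
    rw [map_add, hdegC, mw_hg_degree_single]; ring
  have hjump : Module.finrank mw_K ↥(riemannRochSpace (C + Finsupp.single z 1)) ≠
      Module.finrank mw_K ↥(riemannRochSpace C) := by
    intro heq
    have h1 := h.rr (C + Finsupp.single z 1) (by rw [hdegC1]; omega)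
    have h2 := h.rr C (by rw [hdegC])
    rw [heq, h2, hdegC1, hdegC] at h1
    omega
  obtain ⟨f, hf0, hfL, hford⟩ := ffg_exists_of_jump (rt_isSepGen_jBar N) C z hjump
  have hford' : z.ord f = -D z + 1 := by
    rw [hford, hC, Finsupp.sub_apply, Finsupp.single_eq_same]; ring
  have hfD : f ∈ riemannRochSpace D := by
    refine rt_L_mono ?_ hfL
    rw [hCD, Finsupp.le_def]
    intro v
    have h0 : (0 : ℤ) ≤ (Finsupp.single z (1 : ℤ) : mw_Div N) v := by
      rw [Finsupp.single_apply]; split_ifs <;> norm_num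
    rw [Finsupp.sub_apply]
    omega
  rw [← hspan, mw_hg_mem_span_iff] at hfD
  obtain ⟨cc, rfl⟩ := hfD
  obtain ⟨hq0, hqmem⟩ := mw_v_piv_spec x h.exists_ne z
  have hπ0 : π ≠ 0 := mw_hg_ne_zero_of_ord hπ one_ne_zero
  -- the order of `f / x_q` is `1`
  have hord1 : z.ord (mw_sec x cc / x (mw_piv x z)) = 1 := by
    rw [div_eq_mul_inv, z.ord_mul hf0 (inv_ne_zero hq0), z.ord_inv, hford', hbpf]
    ring
  have hne1 : mw_sec x cc / x (mw_piv x z) ≠ 0 := div_ne_zero hf0 hq0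
  -- its value at `z` is `0`
  have hval : mw_dot cc (mw_vec x z) = 0 := by
    rw [mw_v_dot x h.exists_ne z, mw_v_eq_zero_iff_ord z hne1 (by omega), hord1]
    exact one_pos
  -- decomposition `f / x_q = π · ∑ cc_a η_a`
  have hdecomp : mw_sec x cc / x (mw_piv x z) =
      π * ∑ a, algebraMap mw_K (mw_F N) (cc a) *
        ((x a / x (mw_piv x z) - algebraMap mw_K (mw_F N) (mw_vec x z a)) / π) := by
    rw [Finset.mul_sum, mw_v_sec_div]
    have e1 : ∀ a, π * (algebraMap mw_K (mw_F N) (cc a) *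
        ((x a / x (mw_piv x z) - algebraMap mw_K (mw_F N) (mw_vec x z a)) / π)) =
        algebraMap mw_K (mw_F N) (cc a) * (x a / x (mw_piv x z)) -
          algebraMap mw_K (mw_F N) (cc a * mw_vec x z a) := by
      intro a
      rw [map_mul]
      field_simp
    rw [Finset.sum_congr rfl fun a _ => e1 a, Finset.sum_sub_distrib, ← map_sum]
    have : ∑ a, cc a * mw_vec x z a = 0 := hval
    rw [this, map_zero, sub_zero]
  -- every `η_a` is a non-unit
  have hnu : ∀ a, algebraMap mw_K (mw_F N) (cc a) *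
      ((x a / x (mw_piv x z) - algebraMap mw_K (mw_F N) (mw_vec x z a)) / π) = 0 ∨
      1 ≤ z.ord (algebraMap mw_K (mw_F N) (cc a) *
        ((x a / x (mw_piv x z) - algebraMap mw_K (mw_F N) (mw_vec x z a)) / π)) := by
    intro a
    by_cases h0 : algebraMap mw_K (mw_F N) (cc a) *
      ((x a / x (mw_piv x z) - algebraMap mw_K (mw_F N) (mw_vec x z a)) / π) = 0
    · exact Or.inl h0
    · right
      have hc0 : algebraMap mw_K (mw_F N) (cc a) ≠ 0 := left_ne_zero_of_mul h0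
      have he0 := right_ne_zero_of_mul h0
      have hmem := mw_hg_eta_mem h z hπ a
      have hτ := hcon a
      rw [mw_tanAt, mw_v_eq_zero_iff_ord z he0 ((mw_v_mem_iff z he0).mp hmem)] at hτ
      rw [z.ord_mul hc0 he0, hw_ord_algebraMap]
      omega
  have hsum0 : (∑ a, algebraMap mw_K (mw_F N) (cc a) *
      ((x a / x (mw_piv x z) - algebraMap mw_K (mw_F N) (mw_vec x z a)) / π)) ≠ 0 := by
    intro h0
    rw [h0, mul_zero] at hdecomp
    exact hne1 hdecomp
  have h2 := mw_hg_ord_sum_ge z Finset.univ _ 1 (fun a _ => hnu a) hsum0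
  have h3 := congrArg z.ord hdecomp
  rw [hord1, z.ord_mul hπ0 hsum0, hπ] at h3
  omega

/-- the tangent vector and the point span a line: `τ(z) ∧ x(z) ≠ 0` -/
theorem mw_hg_wedge_ne (h : mw_hg_Ref x Pinf k g) (z : mw_X N) {π : mw_F N} (hπ : z.ord π = 1) :
    mw_wedge (mw_tanAt N x z π) (mw_vec x z) ≠ 0 := by
  obtain ⟨b, hb⟩ := mw_hg_imm h z hπ
  intro h0
  have h1 := congrFun h0 (b, mw_piv x z)
  have hq0 := (mw_v_piv_spec x h.exists_ne z).1
  have hτq : mw_tanAt N x z π (mw_piv x z) = 0 := by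
    rw [mw_tanAt, mw_v_vec_piv x h.exists_ne z, div_self hq0, map_one, sub_self, zero_div,
      mw_v_zero]
  rw [mw_wedge, Pi.zero_apply] at h1
  simp only [] at h1
  rw [mw_v_vec_piv x h.exists_ne z, hτq, zero_mul, sub_zero, mul_one] at h1
  exact hb h1

end ref

end Fermat.Agent.MW

end
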