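/-
Project MW (S17), leaf [HG] (helper17), part 4: THE GAUSS SYSTEM `W_{ab} = x_a Dx_b - x_b Dx_a`
(`D = d/dt`) AT A PLACE.

* `mw_hg_ord_deriv`    : `D π ≠ 0` and `ord_z (D π) = -mw_dOrd N t z` for a uniformiser `π` at `z`;
* `mw_hg_gauss_local`  : `W_{ab} / h_z ∈ O_z` with value `(τ(z) ∧ x(z))_{ab}`, where
                         `ord_z h_z = 2 ord_z x_piv - mw_dOrd N t z`;
* `mw_hg_vec_eq`       : the projective vector of a family from its values after division by `h`;
* `mw_hg_span_at`      : a family `ψ` with the same span as `f · W`: its base order at `z` and the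
                         height of `ψ(z)` against `h(τ(z) ∧ x(z))`.
Prefix `mw_hg_`.
-/
import Fermat.Agent.MW.Global.HG.Embed
import Fermat.Agent.MW.Global.HG.Deriv
import Fermat.Agent.MW.Global.HG.Abs
import Fermat.Agent.MW.Global.Seams

set_option autoImplicit false
set_option linter.style.haveILetI false
set_option linter.unusedSectionVars false

noncomputable section

namespace Fermat.Agent.MW

open AlgebraicCurve ModularCurve Fermat.Agent.S24 Fermat.Agent.JT3
open scoped Classical IntermediateField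

variable {N : ℕ} [NeZero N]

/-- **the order of `dπ/dt`** at `z`, `π` a uniformiser at `z` -/
theorem mw_hg_ord_deriv {t : mw_F N} (ht : Transcendental mw_K t)
    [FiniteDimensional (mw_K)⟮t⟯ (mw_F N)] (z : mw_X N) {π : mw_F N} (hπ : z.ord π = 1) :
    hw_deriv ht π ≠ 0 ∧ z.ord (hw_deriv ht π) = -mw_dOrd N t z := by
  have ht0 : t ≠ 0 := fun h => ht (h ▸ isAlgebraic_zero)
  have hπmem : π ∈ z.toValuationSubring :=
    (mw_v_mem_iff z (mw_hg_ne_zero_of_ord hπ one_ne_zero)).mpr (by omega)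
  have hirr : Irreducible (⟨π, hπmem⟩ : z.toValuationSubring) :=
    mw_hg_irreducible_of_ord z (π := ⟨π, hπmem⟩) hπ
  rw [mw_dOrd]
  split_ifs with h0
  · have htmem : t ∈ z.toValuationSubring := (mw_v_mem_iff z ht0).mpr h0
    have hne : t - algebraMap mw_K (mw_F N) (mw_val z t) ≠ 0 := by
      intro h
      apply ht
      rw [sub_eq_zero.mp h]
      exact isAlgebraic_algebraMap _
    have hpos := (mw_v_mem_nonunits_iff z hne).mp (mw_v_spec z htmem)
    have := mw_hg_ord_deriv_unif_of_mem ht z hirr (mw_val z t) hpos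
    exact this
  · have := mw_hg_ord_deriv_unif_of_pole ht z hirr (not_le.mp h0)
    exact this

/-- the Gauss (Wronskian) family `W_{ab} = x_a Dx_b - x_b Dx_a` -/
def mw_hg_W (D : Derivation mw_K (mw_F N) (mw_F N)) {r : ℕ} (x : Fin (r + 1) → mw_F N) :
    Fin (r + 1) × Fin (r + 1) → mw_F N :=
  fun p => x p.1 * D (x p.2) - x p.2 * D (x p.1)

variable {r : ℕ} {x : Fin (r + 1) → mw_F N} {Pinf : mw_X N} {k g : ℕ}

/-- **the Gauss system at a place**: after division by `h_z = -x_piv² · Dπ` the family `W` is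
regular at `z` with value `τ(z) ∧ x(z)` -/
theorem mw_hg_gauss_local (h : mw_hg_Ref x Pinf k g) {t : mw_F N} (ht : Transcendental mw_K t)
    [FiniteDimensional (mw_K)⟮t⟯ (mw_F N)] (z : mw_X N) {π : mw_F N} (hπ : z.ord π = 1) :
    ∃ hh : mw_F N, hh ≠ 0 ∧
      z.ord hh = 2 * z.ord (x (mw_piv x z)) - mw_dOrd N t z ∧
      ∀ p, mw_hg_W (hw_deriv ht) x p / hh ∈ z.toValuationSubring ∧
        mw_val z (mw_hg_W (hw_deriv ht) x p / hh) =
          mw_wedge (mw_tanAt N x z π) (mw_vec x z) p := by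
  obtain ⟨hDπ0, hDπord⟩ := mw_hg_ord_deriv ht z hπ
  obtain ⟨hq0, hqmem⟩ := mw_v_piv_spec x h.exists_ne z
  have hπ0 : π ≠ 0 := mw_hg_ne_zero_of_ord hπ one_ne_zero
  have hπmem : π ∈ z.toValuationSubring := (mw_v_mem_iff z hπ0).mpr (by omega)
  have hπnu : π ∈ z.toValuationSubring.nonunits := (mw_v_mem_nonunits_iff z hπ0).mpr (by omega)
  have hirr : Irreducible (⟨π, hπmem⟩ : z.toValuationSubring) :=
    mw_hg_irreducible_of_ord z (π := ⟨π, hπmem⟩) hπ
  set xq := x (mw_piv x z) with hxq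
  -- the local coordinates
  have hηmem := fun a => mw_hg_eta_mem h z hπ a
  choose g' hg' using fun a => mw_hg_deriv_mem ht z hirr (mw_vec x z a)
    ⟨(x a / xq - algebraMap mw_K (mw_F N) (mw_vec x z a)) / π, hηmem a⟩
  have hξ : ∀ a, x a / xq = algebraMap mw_K (mw_F N) (mw_vec x z a) +
      π * ((x a / xq - algebraMap mw_K (mw_F N) (mw_vec x z a)) / π) := by
    intro a; field_simp; ring
  -- `G_a`
  set G : Fin (r + 1) → mw_F N := fun a =>
    (x a / xq - algebraMap mw_K (mw_F N) (mw_vec x z a)) / π + π * (g' a : mw_F N) with hG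
  have hGmem : ∀ a, G a ∈ z.toValuationSubring := fun a =>
    z.toValuationSubring.add_mem _ _ (hηmem a)
      (z.toValuationSubring.mul_mem _ _ hπmem (g' a).2)
  have hGval : ∀ a, mw_val z (G a) = mw_tanAt N x z π a := by
    intro a
    rw [hG, mw_v_add z (hηmem a) (z.toValuationSubring.mul_mem _ _ hπmem (g' a).2),
      mw_v_mul z hπmem (g' a).2, (mw_v_eq_zero_iff z hπmem).mpr hπnu, zero_mul, add_zero, mw_tanAt]
  have hDξ : ∀ a, hw_deriv ht (x a / xq) = G a * hw_deriv ht π := by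
    intro a
    have := hg' a
    simp only [] at this
    rw [← hξ a] at this
    exact this
  -- `D x_a`
  have hDx : ∀ a, hw_deriv ht (x a) = (x a / xq) * hw_deriv ht xq + xq * (G a * hw_deriv ht π) := by
    intro a
    have e : x a = xq * (x a / xq) := by field_simp
    conv_lhs => rw [e]
    rw [Derivation.leibniz, hDξ a]
    simp only [smul_eq_mul]
    ring
  refine ⟨-(xq ^ 2 * hw_deriv ht π), neg_ne_zero.mpr (mul_ne_zero (pow_ne_zero 2 hq0) hDπ0), ?_, ?_⟩
  · rw [hw_ord_neg, z.ord_mul (pow_ne_zero 2 hq0) hDπ0, hDπord, pow_two, z.ord_mul hq0 hq0]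
    ring
  · rintro ⟨a, b⟩
    have e : mw_hg_W (hw_deriv ht) x (a, b) / -(xq ^ 2 * hw_deriv ht π) =
        (x b / xq) * G a - (x a / xq) * G b := by
      rw [mw_hg_W]
      simp only []
      rw [hDx a, hDx b]
      field_simp
      ring
    rw [e]
    have hm1 := z.toValuationSubring.mul_mem _ _ (hqmem b) (hGmem a)
    have hm2 := z.toValuationSubring.mul_mem _ _ (hqmem a) (hGmem b)
    refine ⟨sub_mem hm1 hm2, ?_⟩
    rw [mw_v_sub z hm1 hm2, mw_v_mul z (hqmem b) (hGmem a), mw_v_mul z (hqmem a) (hGmem b),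
      hGval, hGval, mw_wedge]
    simp only [mw_vec]
    ring

/-- **the projective vector of a family from its values after division by `h`** -/
theorem mw_hg_vec_eq {s : ℕ} (φ : Fin (s + 1) → mw_F N) (P : mw_X N) (hh : mw_F N) (hh0 : hh ≠ 0)
    (u : Fin (s + 1) → mw_K) (hmem : ∀ a, φ a / hh ∈ P.toValuationSubring)
    (hval : ∀ a, mw_val P (φ a / hh) = u a) (hu : u ≠ 0) :
    (∃ b, φ b ≠ 0) ∧ P.ord (φ (mw_piv φ P)) = P.ord hh ∧
      ∃ c : mw_K, c ≠ 0 ∧ mw_vec φ P = c • u := by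
  obtain ⟨a, ha⟩ : ∃ a, u a ≠ 0 := by
    by_contra hcon
    push Not at hcon
    exact hu (funext hcon)
  have hφa : φ a ≠ 0 := by
    intro h0
    apply ha
    rw [← hval a, h0, zero_div, mw_v_zero]
  have hex : ∃ b, φ b ≠ 0 := ⟨a, hφa⟩
  have horda : P.ord (φ a / hh) = 0 := by
    have hne := div_ne_zero hφa hh0
    have h1 := (mw_v_mem_iff P hne).mp (hmem a)
    have h2 : ¬ 0 < P.ord (φ a / hh) := by
      rw [← mw_v_eq_zero_iff_ord P hne h1, hval a]
      exact ha
    omega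
  obtain ⟨hq0, hqmem⟩ := mw_v_piv_spec φ hex P
  have hordq : P.ord (φ (mw_piv φ P)) = P.ord hh := by
    have h1 := mw_v_ord_piv_le φ hex P hφa
    have h2 := (mw_v_mem_iff P (div_ne_zero hq0 hh0)).mp (hmem _)
    rw [div_eq_mul_inv, P.ord_mul hq0 (inv_ne_zero hh0), P.ord_inv] at h2
    rw [div_eq_mul_inv, P.ord_mul hφa (inv_ne_zero hh0), P.ord_inv] at horda
    omega
  refine ⟨hex, hordq, (u (mw_piv φ P))⁻¹, ?_, ?_⟩
  · apply inv_ne_zero
    rw [← hval]
    apply mw_v_ne_zero_of_ord_eq_zero P (div_ne_zero hq0 hh0)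
    rw [div_eq_mul_inv, P.ord_mul hq0 (inv_ne_zero hh0), P.ord_inv, hordq]
    ring
  · funext b
    have hinvmem : hh / φ (mw_piv φ P) ∈ P.toValuationSubring := by
      rw [mw_v_mem_iff P (div_ne_zero hh0 hq0), div_eq_mul_inv, P.ord_mul hh0 (inv_ne_zero hq0),
        P.ord_inv, hordq]
      omega
    have e1 : φ b / φ (mw_piv φ P) = (φ b / hh) * (hh / φ (mw_piv φ P)) := by
      field_simp
    have e2 : mw_val P (φ (mw_piv φ P) / hh) * mw_val P (hh / φ (mw_piv φ P)) = 1 := by
      rw [← mw_v_mul P (hmem _) hinvmem]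
      have : φ (mw_piv φ P) / hh * (hh / φ (mw_piv φ P)) = 1 := by field_simp
      rw [this, mw_v_one]
    rw [hval] at e2
    rw [mw_vec, e1, mw_v_mul P (hmem b) hinvmem, hval, Pi.smul_apply, smul_eq_mul,
      eq_inv_of_mul_eq_one_right e2]
    ring

end Fermat.Agent.MW

end
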