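/-
Project MW (S17), leaf [HG] (helper17), part 5: TOOLS FOR THE ASSEMBLY.

* `mw_hg_exists_basis`   : a finite-dimensional nonzero subspace has a basis indexed by `Fin (m+1)`;
* `mw_hg_exists_coeff`   : coefficients of a family in the span of another;
* `mw_hg_span_at`        : a family `ψ` with the same span as `Wt`: its base order at `z` and the
                           height of `ψ(z)` against the height of the values of `Wt / h`;
* `mw_hg_hDiv_principal` : `h_{div f}` is bounded off its support (⟸ LEI);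
* `mw_hg_hx_le`          : `h_x ≤ k · h_Δ(·,∞) + C` with the SHARP `k` (⟸ HY).
Prefix `mw_hg_`.
-/
import Fermat.Agent.MW.Global.HG.Gauss
import Fermat.Agent.MW.Global.AMPLE

set_option autoImplicit false
set_option linter.style.haveILetI false
set_option linter.unusedSectionVars false

noncomputable section

namespace Fermat.Agent.MW

open AlgebraicCurve ModularCurve Fermat.Agent.S24 Fermat.Agent.JT3 Fermat.Agent.FF
open scoped Classical IntermediateField

variable {N : ℕ} [NeZero N]

/-- a finite-dimensional nonzero subspace has a basis indexed by `Fin (m + 1)` (generic) -/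
theorem mw_hg_exists_basis_gen {K V : Type*} [Field K] [AddCommGroup V] [Module K V]
    (S : Submodule K V) [Module.Finite K ↥S] (hS : S ≠ ⊥) :
    ∃ (m : ℕ) (ψ : Fin (m + 1) → V), LinearIndependent K ψ ∧
      Submodule.span K (Set.range ψ) = S := by
  have hpos : 0 < Module.finrank K ↥S := by
    rw [Module.finrank_pos_iff_exists_ne_zero]
    obtain ⟨v, hvS, hv0⟩ := (Submodule.ne_bot_iff S).mp hS
    exact ⟨⟨v, hvS⟩, fun h => hv0 (congrArg Subtype.val h)⟩
  obtain ⟨m, hm⟩ : ∃ m, Module.finrank K ↥S = m + 1 := ⟨_, (Nat.succ_pred_eq_of_pos hpos).symm⟩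
  let b : Module.Basis (Fin (m + 1)) K ↥S := (Module.finBasis K ↥S).reindex (finCongr hm)
  refine ⟨m, fun i => ((b i : ↥S) : V), ?_, ?_⟩
  · exact b.linearIndependent.map' S.subtype (Submodule.ker_subtype S)
  · have h1 : Set.range (fun i => ((b i : ↥S) : V)) = S.subtype '' Set.range b := by
      rw [← Set.range_comp]; rfl
    rw [h1, Submodule.span_image, b.span_eq, Submodule.map_subtype_top]

/-- a finite-dimensional nonzero subspace of `mw_F N` has a basis indexed by `Fin (m + 1)` -/
theorem mw_hg_exists_basis (S : Submodule mw_K (mw_F N)) (hfin : Module.Finite mw_K ↥S)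
    (hS : S ≠ ⊥) :
    ∃ (m : ℕ) (ψ : Fin (m + 1) → mw_F N), LinearIndependent mw_K ψ ∧
      Submodule.span mw_K (Set.range ψ) = S :=
  mw_hg_exists_basis_gen S hS

/-- coefficients of a family inside the span of another -/
theorem mw_hg_exists_coeff {ι κ : Type} [Fintype κ] (φ : ι → mw_F N) (χ : κ → mw_F N)
    (h : ∀ i, φ i ∈ Submodule.span mw_K (Set.range χ)) :
    ∃ A : ι × κ → mw_K, ∀ i, φ i = ∑ j, algebraMap mw_K (mw_F N) (A (i, j)) * χ j := by
  have h' := fun i => (Submodule.mem_span_range_iff_exists_fun mw_K).mp (h i)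
  choose c hc using h'
  refine ⟨fun p => c p.1 p.2, fun i => ?_⟩
  rw [← hc i]
  exact Finset.sum_congr rfl fun j _ => Algebra.smul_def _ _

/-- **a family `ψ` with the same span as `Wt`, at a place**: if `Wt / h` is regular at `P` with
values `w ≠ 0`, then `ord_P ψ_piv = ord_P h` and `h(ψ(P)) ≤ h(w) + C(B)`. -/
theorem mw_hg_span_at {ι : Type} [Fintype ι] {m : ℕ} (ψ : Fin (m + 1) → mw_F N)
    (Wt : ι → mw_F N) (B : Fin (m + 1) × ι → mw_K) (A : ι × Fin (m + 1) → mw_K)
    (hB : ∀ i, ψ i = ∑ j, algebraMap mw_K (mw_F N) (B (i, j)) * Wt j)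
    (hA : ∀ j, Wt j = ∑ i, algebraMap mw_K (mw_F N) (A (j, i)) * ψ i)
    (P : mw_X N) (hh : mw_F N) (hh0 : hh ≠ 0) (w : ι → mw_K)
    (hmem : ∀ j, Wt j / hh ∈ P.toValuationSubring) (hval : ∀ j, mw_val P (Wt j / hh) = w j)
    (hw : w ≠ 0) :
    P.ord (ψ (mw_piv ψ P)) = P.ord hh ∧
      mw_ht (mw_vec ψ P) ≤ mw_ht w + (Real.log (Nat.card ι) + mw_ht B) := by
  set u : Fin (m + 1) → mw_K := fun i => ∑ j, B (i, j) * w j with hu
  have hterm : ∀ i j, algebraMap mw_K (mw_F N) (B (i, j)) * (Wt j / hh) ∈ P.toValuationSubring :=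
    fun i j => P.toValuationSubring.mul_mem _ _ (mw_v_const_mem P _) (hmem j)
  have hψdiv : ∀ i, ψ i / hh = ∑ j, algebraMap mw_K (mw_F N) (B (i, j)) * (Wt j / hh) := by
    intro i
    rw [hB i, Finset.sum_div]
    exact Finset.sum_congr rfl fun j _ => by rw [mul_div_assoc]
  have hψmem : ∀ i, ψ i / hh ∈ P.toValuationSubring := fun i => by
    rw [hψdiv i]
    exact P.toValuationSubring.sum_mem fun j _ => hterm i j
  have hψval : ∀ i, mw_val P (ψ i / hh) = u i := by
    intro i
    rw [hψdiv i, mw_v_sum P _ _ fun j _ => hterm i j, hu]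
    exact Finset.sum_congr rfl fun j _ => by rw [mw_v_const_mul P _ (hmem j), hval j]
  have hu0 : u ≠ 0 := by
    intro h0
    apply hw
    funext j
    have hdiv : Wt j / hh = ∑ i, algebraMap mw_K (mw_F N) (A (j, i)) * (ψ i / hh) := by
      conv_lhs => rw [hA j]
      rw [Finset.sum_div]
      exact Finset.sum_congr rfl fun i _ => by rw [mul_div_assoc]
    rw [← hval j, hdiv, mw_v_sum P _ _ fun i _ =>
      P.toValuationSubring.mul_mem _ _ (mw_v_const_mem P _) (hψmem i)]
    refine Finset.sum_eq_zero fun i _ => ?_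
    rw [mw_v_const_mul P _ (hψmem i), hψval i, h0]
    simp
  obtain ⟨_, hord, c, hc0, hvec⟩ := mw_hg_vec_eq ψ P hh hh0 u hψmem hψval hu0
  refine ⟨hord, ?_⟩
  rw [hvec, mw_hg_ht_smul u hc0]
  exact mw_hg_ht_linear_le B w

/-- **the height of a principal divisor is bounded off its support** (`⟸ [LEI]`) -/
theorem mw_hg_hDiv_principal (hLEI : mw_SeamLEI N) {r : ℕ} {x : Fin (r + 1) → mw_F N}
    (hx : mw_IsRef N x) (E : mw_Div N) (f : mw_F N) (hE : mw_IsDivOf E f) :
    ∃ C : ℝ, ∀ P : mw_X N, P ∉ E.support → |mw_hDiv N x E P| ≤ C := by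
  obtain ⟨C₀, hC₀⟩ := hLEI x hx (max (mw_norm E) 2)
  have hinf : Infinite (mw_X N) := ffg_infinite_place (rt_isSepGen_jBar N)
  obtain ⟨R₁, hR₁⟩ := Infinite.exists_notMem_finset E.support
  obtain ⟨R₂, hR₂⟩ := Infinite.exists_notMem_finset (insert R₁ E.support)
  have hR₂' : R₂ ∉ E.support := fun h => hR₂ (Finset.mem_insert_of_mem h)
  have hR₁₂ : R₂ ≠ R₁ := fun h => hR₂ (h ▸ Finset.mem_insert_self _ _)
  refine ⟨C₀ + |mw_hDiv N x E R₁| + |mw_hDiv N x E R₂|, fun P hP => ?_⟩
  have key : ∀ R : mw_X N, R ∉ E.support → R ≠ P →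
      |mw_hDiv N x E P| ≤ C₀ + |mw_hDiv N x E R| := by
    intro R hR hRP
    have hdeg : Divisor.degree (Finsupp.single P (1 : ℤ) - Finsupp.single R (1 : ℤ) : mw_Div N)
        = 0 := by
      rw [map_sub, mw_hg_degree_single, mw_hg_degree_single, sub_self]
    have hsupp : (Finsupp.single P (1 : ℤ) - Finsupp.single R (1 : ℤ) : mw_Div N).support ⊆
        {P, R} := by
      intro z hz
      rw [Finsupp.mem_support_iff, Finsupp.sub_apply, Finsupp.single_apply,
        Finsupp.single_apply] at hz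
      rw [Finset.mem_insert, Finset.mem_singleton]
      by_contra hcon
      push Not at hcon
      rw [if_neg (Ne.symm hcon.1), if_neg (Ne.symm hcon.2)] at hz
      exact hz (sub_self 0)
    have hdisj : Disjoint
        (Finsupp.single P (1 : ℤ) - Finsupp.single R (1 : ℤ) : mw_Div N).support E.support := by
      refine Finset.disjoint_of_subset_left hsupp ?_
      rw [Finset.disjoint_left]
      intro z hz
      rw [Finset.mem_insert, Finset.mem_singleton] at hz
      rcases hz with rfl | rfl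
      · exact hP
      · exact hR
    have h1 := hC₀ (Finsupp.single P (1 : ℤ) - Finsupp.single R (1 : ℤ)) E f hE hdeg
      ((mw_ample_norm_pair_le N P R).trans (le_max_right _ _)) (le_max_left _ _) hdisj
    rw [mw_ample_B_pair] at h1
    have h2 : |mw_hDiv N x E P| ≤ |mw_hDiv N x E R - mw_hDiv N x E P| + |mw_hDiv N x E R| := by
      have := abs_sub (mw_hDiv N x E R) (mw_hDiv N x E R - mw_hDiv N x E P)
      have e : mw_hDiv N x E R - (mw_hDiv N x E R - mw_hDiv N x E P) = mw_hDiv N x E P := by ring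
      rw [e] at this
      linarith
    linarith
  by_cases hP1 : R₁ = P
  · have := key R₂ hR₂' (fun h => hR₁₂ (h.trans hP1.symm))
    have := abs_nonneg (mw_hDiv N x E R₁)
    linarith
  · have := key R₁ hR₁ hP1
    have := abs_nonneg (mw_hDiv N x E R₂)
    linarith

end Fermat.Agent.MW

end
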