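/-
Project MW (S17), leaf [HG] (helper17), part 6: THE SHARP FORM OF [HX]:
`h_x(P) ≤ k · h_Δ(P, ∞) + C` with `k` THE degree of the reference embedding `x = L(k∞)`
(`⟸ [HY]` for `y = L(mk∞)`, `mk ≥ a₀`, and the `m`-th powers `x_a^m ∈ L(mk∞)`).
Prefix `mw_hg_`.
-/
import Fermat.Agent.MW.Global.HG.Tools

set_option autoImplicit false
set_option linter.style.haveILetI false
set_option linter.unusedSectionVars false

noncomputable section

namespace Fermat.Agent.MW

open AlgebraicCurve ModularCurve Fermat.Agent.S24 Fermat.Agent.JT3 Fermat.Agent.FF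
open scoped Classical IntermediateField

variable {N : ℕ} [NeZero N]

theorem mw_hg_single_mul (Pinf v : mw_X N) (m k : ℕ) :
    (Finsupp.single Pinf ((m * k : ℕ) : ℤ) : mw_Div N) v =
      (m : ℤ) * (Finsupp.single Pinf (k : ℤ) : mw_Div N) v := by
  rw [Finsupp.single_apply, Finsupp.single_apply]
  split_ifs <;> push_cast <;> ring

theorem mw_hg_one_mem_L (Pinf : mw_X N) (a : ℕ) :
    (1 : mw_F N) ∈ riemannRochSpace (Finsupp.single Pinf (a : ℤ) : mw_Div N) := by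
  rw [rt_mem_L_iff one_ne_zero]
  intro v
  rw [Place.ord_one, Finsupp.single_apply]
  split_ifs <;> omega

theorem mw_hg_L_ne_bot (Pinf : mw_X N) (a : ℕ) :
    riemannRochSpace (Finsupp.single Pinf (a : ℤ) : mw_Div N) ≠ ⊥ := by
  intro h
  have := mw_hg_one_mem_L Pinf a
  rw [h, Submodule.mem_bot] at this
  exact one_ne_zero this

/-- complete systems exist -/
theorem mw_hg_exists_complete (Pinf : mw_X N) (a : ℕ) :
    ∃ (s : ℕ) (y : Fin (s + 1) → mw_F N), mw_IsComplete N Pinf a y := by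
  obtain ⟨s, y, h1, h2⟩ := mw_hg_exists_basis
    (riemannRochSpace (Finsupp.single Pinf (a : ℤ) : mw_Div N)) (rt_L_finite_fbar N _)
    (mw_hg_L_ne_bot Pinf a)
  exact ⟨s, y, h1, h2⟩

theorem mw_hg_ord_pow (z : mw_X N) (f : mw_F N) (m : ℕ) : z.ord (f ^ m) = m * z.ord f := by
  have := z.ord_zpow f (m : ℤ)
  rwa [zpow_natCast] at this

variable {r : ℕ} {x : Fin (r + 1) → mw_F N} {Pinf : mw_X N} {k g : ℕ}

/-- **[HX], sharp**: `h_x(P) ≤ k · h_Δ(P,∞) + C` -/
theorem mw_hg_hx_le (hHY : mw_SeamHY N) (hx : mw_IsRef N x) (hPinf : mw_IsInf N Pinf)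
    (href : mw_hg_Ref x Pinf k g) :
    ∃ C : ℝ, ∀ P : mw_X N, P ≠ Pinf → mw_ht (mw_vec x P) ≤ (k : ℝ) * mw_hD x P Pinf + C := by
  obtain ⟨a₁, ha₁⟩ := hHY x hx Pinf hPinf
  have hk1 : 1 ≤ k := by have := href.hk; omega
  obtain ⟨m, hm⟩ : ∃ m : ℕ, m = a₁ + 1 := ⟨_, rfl⟩
  have hm1 : 1 ≤ m := by omega
  have ha : a₁ ≤ m * k := by
    have : m * 1 ≤ m * k := Nat.mul_le_mul_left m hk1
    omega
  obtain ⟨s, y, hy⟩ := mw_hg_exists_complete Pinf (m * k)
  obtain ⟨C_HY, hC_HY⟩ := ha₁ (m * k) ha y hy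
  -- the `m`-th powers lie in `L(mk∞)`
  have hφL : ∀ a, x a ^ m ∈ Submodule.span mw_K (Set.range y) := by
    intro a
    rw [hy.2]
    have hxa0 : x a ≠ 0 := href.li.ne_zero a
    rw [rt_mem_L_iff (pow_ne_zero m hxa0)]
    intro v
    have h1 := (rt_mem_L_iff hxa0).mp (href.mem_L a) v
    rw [mw_hg_ord_pow, mw_hg_single_mul]
    have hm0 : (0 : ℤ) ≤ (m : ℤ) := Int.natCast_nonneg m
    nlinarith
  obtain ⟨A, hA⟩ := mw_hg_exists_coeff (fun a => x a ^ m) y hφL
  have hmpos : (0 : ℝ) < (m : ℝ) := by exact_mod_cast hm1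
  refine ⟨(C_HY + (Real.log (Nat.card (Fin (s + 1))) + mw_ht A)) / m, fun P hP => ?_⟩
  have hyex : ∃ b, y b ≠ 0 := mw_v_exists_ne_zero hy.1
  obtain ⟨hq0, hqmem⟩ := mw_v_piv_spec y hyex P
  obtain ⟨hp0, hpmem⟩ := mw_v_piv_spec x href.exists_ne P
  -- `φ_a / y_q`
  have hterm : ∀ a b, algebraMap mw_K (mw_F N) (A (a, b)) * (y b / y (mw_piv y P)) ∈
      P.toValuationSubring :=
    fun a b => P.toValuationSubring.mul_mem _ _ (mw_v_const_mem P _) (hqmem b)
  have hφdiv : ∀ a, x a ^ m / y (mw_piv y P) =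
      ∑ b, algebraMap mw_K (mw_F N) (A (a, b)) * (y b / y (mw_piv y P)) := by
    intro a
    have := hA a
    rw [this, Finset.sum_div]
    exact Finset.sum_congr rfl fun b _ => by rw [mul_div_assoc]
  have hφmem : ∀ a, x a ^ m / y (mw_piv y P) ∈ P.toValuationSubring := fun a => by
    rw [hφdiv a]
    exact P.toValuationSubring.sum_mem fun b _ => hterm a b
  have hφval : ∀ a, mw_val P (x a ^ m / y (mw_piv y P)) = ∑ b, A (a, b) * mw_vec y P b := by
    intro a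
    rw [hφdiv a, mw_v_sum P _ _ fun b _ => hterm a b]
    exact Finset.sum_congr rfl fun b _ => by rw [mw_v_const_mul P _ (hqmem b), mw_vec]
  -- the orders at `P ≠ ∞`
  have hsingle : ∀ n : ℤ, (Finsupp.single Pinf n : mw_Div N) P = 0 := fun n =>
    Finsupp.single_eq_of_ne hP
  have hordp : P.ord (x (mw_piv x P)) = 0 := by
    rw [mw_hg_bpf href P, hsingle, neg_zero]
  have hordq : P.ord (y (mw_piv y P)) = 0 := by
    have hyL : y (mw_piv y P) ∈ riemannRochSpace (Finsupp.single Pinf ((m * k : ℕ) : ℤ) : mw_Div N) := by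
      rw [← hy.2]; exact Submodule.subset_span ⟨_, rfl⟩
    have h1 := (rt_mem_L_iff hq0).mp hyL P
    rw [hsingle, neg_zero] at h1
    have h2 := (mw_v_mem_iff P (div_ne_zero (pow_ne_zero m hp0) hq0)).mp (hφmem (mw_piv x P))
    rw [div_eq_mul_inv, P.ord_mul (pow_ne_zero m hp0) (inv_ne_zero hq0), P.ord_inv,
      mw_hg_ord_pow, hordp] at h2
    omega
  set ρ : mw_F N := x (mw_piv x P) ^ m / y (mw_piv y P) with hρ
  have hρ0 : ρ ≠ 0 := div_ne_zero (pow_ne_zero m hp0) hq0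
  have hρord : P.ord ρ = 0 := by
    rw [hρ, div_eq_mul_inv, P.ord_mul (pow_ne_zero m hp0) (inv_ne_zero hq0), P.ord_inv,
      mw_hg_ord_pow, hordp, hordq]
    ring
  have hρmem : ρ ∈ P.toValuationSubring := (mw_v_mem_iff P hρ0).mpr hρord.ge
  have hρval : mw_val P ρ ≠ 0 := mw_v_ne_zero_of_ord_eq_zero P hρ0 hρord
  -- the two descriptions of the values
  have hval2 : ∀ a, mw_val P (x a ^ m / y (mw_piv y P)) = mw_val P ρ * mw_vec x P a ^ m := by
    intro a
    have e : x a ^ m / y (mw_piv y P) = ρ * (x a / x (mw_piv x P)) ^ m := by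
      rw [hρ, div_pow]
      field_simp
    rw [e, mw_v_mul P hρmem (P.toValuationSubring.pow_mem (hpmem a) m), mw_v_pow P (hpmem a),
      mw_vec]
  have hu : (fun a => ∑ b, A (a, b) * mw_vec y P b) =
      mw_val P ρ • fun a => mw_vec x P a ^ m := by
    funext a
    rw [← hφval a, hval2 a, Pi.smul_apply, smul_eq_mul]
  have h1 := mw_hg_ht_linear_le A (mw_vec y P)
  rw [hu, mw_hg_ht_smul _ hρval, mw_hg_ht_pow] at h1
  have h2 := (abs_le.mp (hC_HY P hP)).2
  push_cast at h2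
  have h3 : (m : ℝ) * mw_ht (mw_vec x P) ≤ (m : ℝ) * ((k : ℝ) * mw_hD x P Pinf +
      (C_HY + (Real.log (Nat.card (Fin (s + 1))) + mw_ht A)) / m) := by
    rw [mul_add, mul_div_cancel₀ _ hmpos.ne']
    linarith
  exact le_of_mul_le_mul_left h3 hmpos

end Fermat.Agent.MW

end
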