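/-
Project MW (S17), leaf [HG] (helper17), part 7: THE LOWER BOUND FOR THE HEIGHT OF THE GAUSS MAP,
for ONE multiplier `f ∈ L(n∞ - 𝔇⁺)`:
`h(τ(P) ∧ x(P)) ≥ 2k · h_Δ(P,∞) + h_𝔇(P) - C` for `P ∉ supp 𝔇 ∪ {∞} ∪ supp (div f + n∞ - 𝔇⁺)`
(`⟸ [BL↓]` for the system `f · W`, `[HY]`, `[LEI]`).
Prefix `mw_hg_`.
-/
import Fermat.Agent.MW.Global.HG.HXSharp

set_option autoImplicit false
set_option linter.style.haveILetI false
set_option linter.unusedSectionVars false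
set_option maxHeartbeats 1000000

noncomputable section

namespace Fermat.Agent.MW

open AlgebraicCurve ModularCurve Fermat.Agent.S24 Fermat.Agent.JT3 Fermat.Agent.FF
open scoped Classical IntermediateField

variable {N : ℕ} [NeZero N]

theorem mw_hg_hDiv_single {r : ℕ} (x : Fin (r + 1) → mw_F N) (z : mw_X N) (n : ℤ)
    (P : mw_X N) : mw_hDiv N x (Finsupp.single z n) P = (n : ℝ) * mw_hD x P z := by
  unfold mw_hDiv
  rw [Finsupp.sum_single_index]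
  simp

variable {r : ℕ} {x : Fin (r + 1) → mw_F N} {Pinf : mw_X N} {k g : ℕ}

/-- the base order of a family `ψ` spanning the same space as `f · W` -/
theorem mw_hg_base_ord (href : mw_hg_Ref x Pinf k g) {t : mw_F N} (ht : Transcendental mw_K t)
    [FiniteDimensional (mw_K)⟮t⟯ (mw_F N)] {f : mw_F N} (hf : f ≠ 0) {m : ℕ}
    (ψ : Fin (m + 1) → mw_F N)
    (B : Fin (m + 1) × (Fin (r + 1) × Fin (r + 1)) → mw_K)
    (A : (Fin (r + 1) × Fin (r + 1)) × Fin (m + 1) → mw_K)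
    (hB : ∀ i, ψ i = ∑ j, algebraMap mw_K (mw_F N) (B (i, j)) *
      (f * mw_hg_W (hw_deriv ht) x j))
    (hA : ∀ j, f * mw_hg_W (hw_deriv ht) x j =
      ∑ i, algebraMap mw_K (mw_F N) (A (j, i)) * ψ i)
    (z : mw_X N) {π : mw_F N} (hπ : z.ord π = 1) :
    z.ord (ψ (mw_piv ψ z)) =
        z.ord f - 2 * (Finsupp.single Pinf (k : ℤ) : mw_Div N) z - mw_dOrd N t z ∧
      mw_ht (mw_vec ψ z) ≤ mw_ht (mw_wedge (mw_tanAt N x z π) (mw_vec x z)) +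
        (Real.log (Nat.card (Fin (r + 1) × Fin (r + 1))) + mw_ht B) := by
  obtain ⟨hh, hh0, hhord, hhW⟩ := mw_hg_gauss_local href ht z hπ
  have hWt : ∀ p, f * mw_hg_W (hw_deriv ht) x p / (f * hh) = mw_hg_W (hw_deriv ht) x p / hh := by
    intro p
    rw [mul_div_mul_left _ _ hf]
  obtain ⟨h1, h2⟩ := mw_hg_span_at ψ (fun p => f * mw_hg_W (hw_deriv ht) x p) B A hB hA z (f * hh)
    (mul_ne_zero hf hh0) (mw_wedge (mw_tanAt N x z π) (mw_vec x z))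
    (fun p => by rw [hWt p]; exact (hhW p).1) (fun p => by rw [hWt p]; exact (hhW p).2)
    (mw_hg_wedge_ne href z hπ)
  refine ⟨?_, h2⟩
  rw [h1, z.ord_mul hf hh0, hhord, mw_hg_bpf href z]
  ring

/-- **the lower bound for the height of the Gauss map, one multiplier** -/
theorem mw_hg_gauss_lower_one (hBL : mw_SeamBLlow N) (hLEI : mw_SeamLEI N) (hHY : mw_SeamHY N)
    (hx : mw_IsRef N x) (hPinf : mw_IsInf N Pinf) (href : mw_hg_Ref x Pinf k g)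
    {t : mw_F N} (ht : Transcendental mw_K t) [FiniteDimensional (mw_K)⟮t⟯ (mw_F N)]
    (𝔇 : mw_Div N) (h𝔇 : ∀ z, 𝔇 z = mw_dOrd N t z)
    (𝔇p : mw_Div N) (h𝔇p : ∀ z, 𝔇p z = max (𝔇 z) 0)
    (n : ℕ) (f : mw_F N) (hf : f ≠ 0) (𝔅₀ : mw_Div N) (h𝔅₀ : 0 ≤ 𝔅₀)
    (hdiv : ∀ z, 𝔅₀ z = (Finsupp.single Pinf (n : ℤ) - 𝔇p : mw_Div N) z + z.ord f) :
    ∃ C : ℝ, ∀ (P : mw_X N) (π : mw_F N), P ∉ 𝔇.support → P ≠ Pinf → P ∉ 𝔅₀.support →
      P.ord π = 1 →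
      2 * (k : ℝ) * mw_hD x P Pinf + mw_hDiv N x 𝔇 P - C ≤
        mw_ht (mw_wedge (mw_tanAt N x P π) (mw_vec x P)) := by
  obtain ⟨a₀, ha₀⟩ := hBL x hx Pinf hPinf
  obtain ⟨a₁, ha₁⟩ := hHY x hx Pinf hPinf
  obtain ⟨a, haa⟩ : ∃ a : ℕ, a = max (max a₀ a₁) (n + 2 * k) := ⟨_, rfl⟩
  have h0a : a₀ ≤ a := by rw [haa]; exact (le_max_left _ _).trans (le_max_left _ _)
  have h1a : a₁ ≤ a := by rw [haa]; exact (le_max_right _ _).trans (le_max_left _ _)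
  have hna : n + 2 * k ≤ a := by rw [haa]; exact le_max_right _ _
  obtain ⟨s, y, hy⟩ := mw_hg_exists_complete Pinf a
  obtain ⟨C_HY, hC_HY⟩ := ha₁ a h1a y hy
  -- a uniformiser at each place
  choose ϖ hϖ using fun z : mw_X N => mw_hg_exists_unif z
  -- the span of `f · W` is nonzero
  obtain ⟨p₀, hp₀⟩ : ∃ p, mw_wedge (mw_tanAt N x Pinf (ϖ Pinf)) (mw_vec x Pinf) p ≠ 0 := by
    by_contra hcon
    push Not at hcon
    exact mw_hg_wedge_ne href Pinf (hϖ Pinf) (funext hcon)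
  have hWp₀ : f * mw_hg_W (hw_deriv ht) x p₀ ≠ 0 := by
    obtain ⟨hh, hh0, _, hhW⟩ := mw_hg_gauss_local href ht Pinf (hϖ Pinf)
    intro h0
    apply hp₀
    rw [← (hhW p₀).2, (mul_eq_zero.mp h0).resolve_left hf, zero_div, mw_v_zero]
  have hS : Submodule.span mw_K (Set.range fun p => f * mw_hg_W (hw_deriv ht) x p) ≠ ⊥ := by
    intro hbot
    have : f * mw_hg_W (hw_deriv ht) x p₀ ∈
        Submodule.span mw_K (Set.range fun p => f * mw_hg_W (hw_deriv ht) x p) :=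
      Submodule.subset_span ⟨p₀, rfl⟩
    rw [hbot, Submodule.mem_bot] at this
    exact hWp₀ this
  have hSfin : Module.Finite mw_K
      ↥(Submodule.span mw_K (Set.range fun p => f * mw_hg_W (hw_deriv ht) x p)) :=
    FiniteDimensional.span_of_finite mw_K (Set.finite_range _)
  obtain ⟨m, ψ, hψli, hψspan⟩ := mw_hg_exists_basis _ hSfin hS
  obtain ⟨B, hB⟩ := mw_hg_exists_coeff ψ (fun p => f * mw_hg_W (hw_deriv ht) x p)
    (fun i => by rw [← hψspan]; exact Submodule.subset_span ⟨i, rfl⟩)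
  obtain ⟨A, hA⟩ := mw_hg_exists_coeff (fun p => f * mw_hg_W (hw_deriv ht) x p) ψ
    (fun p => by rw [hψspan]; exact Submodule.subset_span ⟨p, rfl⟩)
  have hψex : ∃ b, ψ b ≠ 0 := mw_v_exists_ne_zero hψli
  -- the base divisor
  have hordψ : ∀ z, z.ord (ψ (mw_piv ψ z)) =
      z.ord f - 2 * (Finsupp.single Pinf (k : ℤ) : mw_Div N) z - 𝔇 z := fun z => by
    rw [h𝔇 z]
    exact (mw_hg_base_ord href ht hf ψ B A hB hA z (hϖ z)).1
  obtain ⟨𝔅, h𝔅def⟩ : ∃ 𝔅 : mw_Div N,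
      𝔅 = 𝔅₀ + (𝔇p - 𝔇) + Finsupp.single Pinf ((a - n - 2 * k : ℕ) : ℤ) := ⟨_, rfl⟩
  have h𝔅 : ∀ z, 𝔅 z = z.ord (ψ (mw_piv ψ z)) + (Finsupp.single Pinf (a : ℤ) : mw_Div N) z := by
    intro z
    rw [hordψ z, h𝔅def]
    simp only [Finsupp.add_apply, Finsupp.sub_apply]
    rw [hdiv z]
    simp only [Finsupp.sub_apply, Finsupp.single_apply]
    split_ifs <;> omega
  have h𝔅nonneg : ∀ z, 0 ≤ 𝔅 z := by
    intro z
    rw [h𝔅def]
    simp only [Finsupp.add_apply, Finsupp.sub_apply]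
    have h1 : 0 ≤ 𝔅₀ z := h𝔅₀ z
    have h2 : 0 ≤ 𝔇p z - 𝔇 z := by rw [h𝔇p z]; have := le_max_left (𝔇 z) 0; omega
    have h3 : (0 : ℤ) ≤ (Finsupp.single Pinf ((a - n - 2 * k : ℕ) : ℤ) : mw_Div N) z := by
      rw [Finsupp.single_apply]; split_ifs <;> omega
    omega
  have hψL : ∀ i, ψ i ∈ riemannRochSpace (Finsupp.single Pinf (a : ℤ) : mw_Div N) := by
    intro i
    have hi0 : ψ i ≠ 0 := hψli.ne_zero i
    rw [rt_mem_L_iff hi0]
    intro v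
    have h1 := mw_v_ord_piv_le ψ hψex v hi0
    have h2 := h𝔅 v
    have h3 := h𝔅nonneg v
    omega
  obtain ⟨C_BL, hC_BL⟩ := ha₀ a h0a y hy ψ hψli hψL 𝔅 h𝔅
  -- the principal divisor
  obtain ⟨E, hEdef⟩ : ∃ E : mw_Div N, E = 𝔅₀ - (Finsupp.single Pinf (n : ℤ) - 𝔇p) := ⟨_, rfl⟩
  have hE : mw_IsDivOf E f := ⟨hf, fun z => by
    rw [hEdef, Finsupp.sub_apply, hdiv z]; ring⟩
  obtain ⟨C_E, hC_E⟩ := mw_hg_hDiv_principal hLEI hx E f hE
  have hsum : 𝔅 + 𝔇 = E + Finsupp.single Pinf ((a - 2 * k : ℕ) : ℤ) := by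
    ext z
    rw [h𝔅def, hEdef]
    simp only [Finsupp.add_apply, Finsupp.sub_apply, Finsupp.single_apply]
    split_ifs <;> omega
  refine ⟨C_HY + C_E + C_BL +
    (Real.log (Nat.card (Fin (r + 1) × Fin (r + 1))) + mw_ht B), fun P π hP𝔇 hPinf' hP𝔅₀ hπ => ?_⟩
  have h𝔇P : 𝔇 P = 0 := Finsupp.notMem_support_iff.mp hP𝔇
  have h𝔅₀P : 𝔅₀ P = 0 := Finsupp.notMem_support_iff.mp hP𝔅₀
  have h𝔇pP : 𝔇p P = 0 := by rw [h𝔇p P, h𝔇P]; simp
  have hsingP : ∀ n : ℤ, (Finsupp.single Pinf n : mw_Div N) P = 0 := fun n =>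
    Finsupp.single_eq_of_ne hPinf'
  have hP𝔅 : P ∉ 𝔅.support := by
    rw [Finsupp.notMem_support_iff, h𝔅def]
    simp only [Finsupp.add_apply, Finsupp.sub_apply]
    rw [h𝔅₀P, h𝔇pP, h𝔇P, hsingP]
    ring
  have hPE : P ∉ E.support := by
    rw [Finsupp.notMem_support_iff, hEdef]
    simp only [Finsupp.sub_apply]
    rw [h𝔅₀P, h𝔇pP, hsingP]
    ring
  have hBLP := hC_BL P hP𝔅
  have hHYP := (abs_le.mp (hC_HY P hPinf')).1
  have hEP := (abs_le.mp (hC_E P hPE)).2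
  have hdivsum : mw_hDiv N x 𝔅 P + mw_hDiv N x 𝔇 P =
      mw_hDiv N x E P + (((a - 2 * k : ℕ) : ℤ) : ℝ) * mw_hD x P Pinf := by
    rw [← mw_ample_hDiv_add, hsum, mw_ample_hDiv_add, mw_hg_hDiv_single]
  have hsp := (mw_hg_base_ord href ht hf ψ B A hB hA P hπ).2
  have hcast : (((a - 2 * k : ℕ) : ℤ) : ℝ) = (a : ℝ) - 2 * (k : ℝ) := by
    have : 2 * k ≤ a := by omega
    push_cast [Nat.cast_sub this]
    ring
  rw [hcast] at hdivsum
  nlinarith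

end Fermat.Agent.MW

end
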